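import Fermat.Agent.S55.T.Gm

/-!
# S55 / layer T : Hilbert 90 for `Fn π 𝔾_m`   (key S55/T-H90, helper3)

`H¹(G, Map(Σ, Ωˣ)) = 0` for every finite smooth `G`-set `Σ`.

Proof (Poincaré series).  `F g s := (f g s).toMul`.  Choose `U ∈ 𝓛.sets` with `f (g u) = f g`
and `π u = 1` for `u ∈ U`.  For `x : Σ → Ω^U` put `b s = ∑_{g ∈ G/U} F g s * α g (x (g⁻¹ s))`.
Then `F h s * α h (b (h⁻¹ s)) = b s`.  Choose orbit representatives `R`, `x` supported on `R`;
`b s₀ = ∑_{g ∈ Stab s₀ / U} F g s₀ * α g (x s₀) ≠ 0` for a suitable `x s₀` (Dedekind; the characters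
`α g` on `Ω^U`, `g ∈ G/U`, are distinct by `GalAct.closed`).  Hence `b` is nowhere `0`, `f = d⁰(b⁻¹)`.
-/

set_option autoImplicit false

namespace Fermat.Agent.S55.T

namespace H90Aux

variable {G : Type*} [Group G]

theorem sum_translate {X : Type*} [AddCommMonoid X] (U : Subgroup G) [Fintype (G ⧸ U)] (φ : G → X)
    (hφ : ∀ g, ∀ u ∈ U, φ (g * u) = φ g) (h : G) :
    ∑ q : G ⧸ U, φ (h * q.out) = ∑ q : G ⧸ U, φ q.out := by
  refine Fintype.sum_equiv (MulAction.toPerm h : Equiv.Perm (G ⧸ U)) _ _ (fun q => ?_)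
  have h1 : (MulAction.toPerm h : Equiv.Perm (G ⧸ U)) q = ((h * q.out : G) : G ⧸ U) := by
    conv_lhs => rw [← QuotientGroup.out_eq' q]
    rfl
  rw [h1]
  obtain ⟨u, hu⟩ := QuotientGroup.mk_out_eq_mul U (h * q.out)
  rw [hu, hφ _ u u.2]

/-- orbit representatives -/
theorem exists_reps {Sg : Type*} [Finite Sg] (π : G →* Equiv.Perm Sg) :
    ∃ R : Sg → Prop, (∀ s, ∃ g, R (π g s)) ∧ ∀ s g, R s → R ((π g)⁻¹ s) → (π g)⁻¹ s = s := by
  classical
  obtain ⟨m, ⟨e⟩⟩ := Finite.exists_equiv_fin Sg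
  refine ⟨fun s => ∀ g, (e s : ℕ) ≤ (e (π g s) : ℕ), fun s => ?_, fun s g h1 h2 => ?_⟩
  · have hex : ∃ k, ∃ g, (e (π g s) : ℕ) = k := ⟨_, 1, rfl⟩
    obtain ⟨g0, hg0⟩ := Nat.find_spec hex
    refine ⟨g0, fun g => ?_⟩
    rw [hg0]
    refine Nat.find_min' hex ⟨g * g0, ?_⟩
    rw [map_mul]; rfl
  · have a1 := h1 g⁻¹
    have a2 := h2 g
    rw [map_inv] at a1
    have a3 : (π g) ((π g)⁻¹ s) = s := by simp
    rw [a3] at a2
    exact e.injective (Fin.ext (le_antisymm a2 a1))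

variable {𝓛 : Lvl G} {Ω : Type*} [Field Ω] {α : G →* RingAut Ω}

/-- the fixed points of `U` as a submonoid -/
def fixM (α : G →* RingAut Ω) (U : Subgroup G) : Submonoid Ω where
  carrier := {x | ∀ u ∈ U, α u x = x}
  mul_mem' := fun ha hb u hu => by rw [map_mul, ha u hu, hb u hu]
  one_mem' := fun u _ => map_one _

/-- the character `α g` on the fixed points -/
def chr (α : G →* RingAut Ω) (U : Subgroup G) (g : G) : fixM α U →* Ω where
  toFun y := α g y
  map_one' := map_one _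
  map_mul' a b := map_mul _ _ _

theorem dedekind (h : GalAct 𝓛 α) (U : Subgroup G) (hU : U ∈ 𝓛.sets) [Fintype (G ⧸ U)]
    (c : G ⧸ U → Ω) (q0 : G ⧸ U) (hc : c q0 ≠ 0) :
    ∃ y : Ω, (∀ u ∈ U, α u y = y) ∧ ∑ q : G ⧸ U, c q * α q.out y ≠ 0 := by
  by_contra hcon
  push Not at hcon
  have hinj : Function.Injective (fun q : G ⧸ U => chr α U q.out) := by
    intro q q' hqq
    have h1 : q.out⁻¹ * q'.out ∈ U := by
      refine h.closed U hU _ fun x hx => ?_
      have h2 : α q.out x = α q'.out x := DFunLike.congr_fun hqq (⟨x, hx⟩ : fixM α U)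
      rw [map_mul, RingAut.mul_apply, ← h2, ← RingAut.mul_apply, ← map_mul, inv_mul_cancel,
        map_one, RingAut.one_apply]
    rw [← QuotientGroup.out_eq' q, ← QuotientGroup.out_eq' q']
    exact QuotientGroup.eq.2 h1
  have hli := (linearIndependent_monoidHom (fixM α U) Ω).comp _ hinj
  rw [Fintype.linearIndependent_iff] at hli
  refine hc (hli c ?_ q0)
  ext y
  simp only [Function.comp_apply, Finset.sum_apply, Pi.smul_apply, smul_eq_mul, Pi.zero_apply]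
  exact hcon y.1 y.2

theorem key (h : GalAct 𝓛 α) {Sg : Type*} [Finite Sg] (π : G →* Equiv.Perm Sg) (U : Subgroup G)
    (hU : U ∈ 𝓛.sets) (hUπ : ∀ u ∈ U, π u = 1) (F : G → Sg → Ω) (hF0 : ∀ g s, F g s ≠ 0)
    (hFU : ∀ g, ∀ u ∈ U, F (g * u) = F g)
    (hcoc : ∀ g k s, F (g * k) s = α g (F k ((π g)⁻¹ s)) * F g s) :
    ∃ b : Sg → Ω, (∀ s, b s ≠ 0) ∧ ∀ g s, F g s * α g (b ((π g)⁻¹ s)) = b s := by
  classical
  haveI := 𝓛.fin U hU
  haveI : Finite (G ⧸ U) := Subgroup.finite_quotient_of_finiteIndex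
  haveI : Fintype (G ⧸ U) := Fintype.ofFinite _
  obtain ⟨R, hR1, hR2⟩ := exists_reps π
  -- the choice of `y`
  have hy : ∀ s0 : Sg, ∃ y : Ω, (∀ u ∈ U, α u y = y) ∧
      ∑ q : G ⧸ U, (if (π q.out)⁻¹ s0 = s0 then F q.out s0 else 0) * α q.out y ≠ 0 := by
    intro s0
    refine dedekind h U hU _ ((1 : G) : G ⧸ U) ?_
    have h1 : (((1 : G) : G ⧸ U)).out ∈ U := by
      obtain ⟨u, hu⟩ := QuotientGroup.mk_out_eq_mul U 1
      rw [hu, one_mul]; exact u.2
    rw [hUπ _ h1, if_pos (by simp)]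
    exact hF0 _ _
  choose y hyU hy using hy
  set x : Sg → Ω := fun s => if R s then y s else 0 with hx
  have hxU : ∀ s, ∀ u ∈ U, α u (x s) = x s := by
    intro s u hu
    simp only [hx]
    split_ifs
    · exact hyU s u hu
    · exact map_zero _
  set term : Sg → G → Ω := fun s g => F g s * α g (x ((π g)⁻¹ s)) with hterm
  have hterm_inv : ∀ s g, ∀ u ∈ U, term s (g * u) = term s g := by
    intro s g u hu
    simp only [hterm]
    rw [hFU g u hu, map_mul, map_mul, hUπ u hu, mul_one, RingAut.mul_apply, hxU _ u hu]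
  set b : Sg → Ω := fun s => ∑ q : G ⧸ U, term s q.out with hb
  have hequiv : ∀ g s, F g s * α g (b ((π g)⁻¹ s)) = b s := by
    intro g s
    simp only [hb]
    rw [← sum_translate U (term s) (hterm_inv s) g, map_sum, Finset.mul_sum]
    refine Finset.sum_congr rfl fun q _ => ?_
    simp only [hterm]
    rw [hcoc g q.out s, map_mul, map_mul (π), mul_inv_rev, Equiv.Perm.mul_apply, map_mul α,
      RingAut.mul_apply]
    ring
  have hbR : ∀ s0, R s0 → b s0 ≠ 0 := by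
    intro s0 hs0
    have : b s0 = ∑ q : G ⧸ U, (if (π q.out)⁻¹ s0 = s0 then F q.out s0 else 0) * α q.out (y s0) := by
      simp only [hb, hterm]
      refine Finset.sum_congr rfl fun q _ => ?_
      by_cases hq : (π q.out)⁻¹ s0 = s0
      · rw [if_pos hq, hq]
        simp only [hx, if_pos hs0]
      · rw [if_neg hq, zero_mul]
        have : ¬ R ((π q.out)⁻¹ s0) := fun hh => hq (hR2 s0 _ hs0 hh)
        simp only [hx, if_neg this, map_zero, mul_zero]
    rw [this]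
    exact hy s0
  refine ⟨b, fun s => ?_, hequiv⟩
  obtain ⟨g, hg⟩ := hR1 s
  have h1 := hequiv g (π g s)
  have h2 : (π g)⁻¹ (π g s) = s := by simp
  rw [h2] at h1
  intro h0
  rw [h0, map_zero, mul_zero] at h1
  exact hbR _ hg h1.symm

end H90Aux

variable {G : Type*} [Group G] {𝓛 : Lvl G} {Ω : Type*} [Field Ω] {α : G →* RingAut Ω}

theorem H90 (h : GalAct 𝓛 α) {Sg : Type*} [Finite Sg] (π : G →* Equiv.Perm Sg)
    (hπ : SmoothSet π 𝓛) (x : H1 𝓛 (Fn π (gm α))) : x = 0 := by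
  obtain ⟨f, rfl⟩ := H1.mk_surjective 𝓛 _ x
  rw [H1.mk_eq_zero_iff]
  refine ⟨f.2.1, ?_⟩
  obtain ⟨U1, hU1, hf1⟩ := f.2.1
  obtain ⟨U2, hU2, hπ2⟩ := hπ
  obtain ⟨U, hU, hUU⟩ := 𝓛.inter U1 hU1 U2 hU2
  obtain ⟨b, hb0, hb⟩ := H90Aux.key h π U hU (fun u hu => hπ2 u (hUU hu).2)
    (fun g s => (((f.1 g s).toMul : Ωˣ) : Ω)) (fun g s => Units.ne_zero _)
    (fun g u hu => by simp only [hf1 g u (hUU hu).1])
    (fun g k s => by
      have := congrFun (f.2.2 g k) s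
      rw [this, Pi.add_apply, Fn_apply, toMul_add, Units.val_mul, coe_gm_apply])
  refine ⟨fun s => Additive.ofMul (Units.mk0 (b s) (hb0 s))⁻¹, ?_⟩
  ext g s
  rw [d0_apply, Pi.sub_apply, Fn_apply, toMul_sub, Units.val_div_eq_div_val, coe_gm_apply]
  simp only [toMul_ofMul, Units.val_inv_eq_inv_val, Units.val_mk0, map_inv₀]
  have h1 := hb g s
  have h2 : α g (b ((π g)⁻¹ s)) ≠ 0 := by
    intro h0
    rw [h0, mul_zero] at h1
    exact hb0 s h1.symm
  rw [← h1]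
  field_simp

end Fermat.Agent.S55.T
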