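import Fermat.Agent.S55.T.Four
import Fermat.Agent.S55.T.H90

/-!
# S55 / layer T : cyclic torsors of `G`-sets and `θ`

`u : Σ' → Σ` a map of `G`-sets, `σ` a permutation of `Σ'` commuting with `G`, of order `n`, acting
freely, whose orbits are the fibres of `u`  (`CycTorsor n π π' u σ`).
Four term exact sequence `0 → Fn Σ A --pull--> Fn Σ' A --σ^* - 1--> Fn Σ' A --push--> Fn Σ A → 0`,
`θ : H⁰(Fn Σ A) → H²(Fn Σ A)`.  For `A = 𝔾_m` : `ker θ = norms`, `range θ = ker(Br Σ → Br Σ')`.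

## keys (ALL DONE, helper28)
* `S55/T-EX`  : `push_apply`, `exists_tw_eq`, `ex4`  (pure combinatorics, Mathlib only)
* `S55/T-NAT` : `pull_push`, `push_pull`, `push_tw`, `push_push`, `theta_pull`, `theta_push`,
                `theta_res`
* `S55/T-BC`  : base change of a torsor (`fibre product`)

### proofs
`push_apply` : `k ↦ σ^k s` is a bijection `range n → fibre of u through s` (`fib`, `free`, `pow`).
`exists_tw_eq` : choose a section `t` of `u`; every `s'` is `σ^k (t (u s'))` for a unique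
 `k = κ s' < n`; `h s' := ∑_{j < κ s'} f (σ^j (t (u s')))`.  `κ (σ s') = κ s' + 1` or (`κ s' = n - 1`
 and `κ (σ s') = 0`); in the second case use `∑_{j<n} f (σ^j t) = push f = 0`.
-/

set_option autoImplicit false

namespace Fermat.Agent.S55.T

variable {G : Type*} [Group G] {Sg Sg' : Type*}

/-- a cyclic torsor of `G`-sets -/
structure CycTorsor (n : ℕ) (π : G →* Equiv.Perm Sg) (π' : G →* Equiv.Perm Sg') (u : Sg' → Sg)
    (σ : Equiv.Perm Sg') : Prop where
  pos : 0 < n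
  map : IsSetMap π π' u
  comm : IsSetMap π' π' σ
  surj : Function.Surjective u
  fib : ∀ s t, u s = u t ↔ ∃ k : ℕ, (σ ^ k) s = t
  pow : σ ^ n = 1
  free : ∀ (s : Sg') (k : ℕ), (σ ^ k) s = s → n ∣ k

/-- `f ↦ f ∘ σ - f` -/
def tw (A : Type*) [AddCommGroup A] (σ : Equiv.Perm Sg') : (Sg' → A) →+ (Sg' → A) :=
  pull A σ - AddMonoidHom.id _

@[simp] theorem tw_apply {A : Type*} [AddCommGroup A] (σ : Equiv.Perm Sg') (f : Sg' → A) (s : Sg') :
    tw A σ f s = f (σ s) - f s := rfl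

variable {n : ℕ} {π : G →* Equiv.Perm Sg} {π' : G →* Equiv.Perm Sg'} {u : Sg' → Sg}
  {σ : Equiv.Perm Sg'} {A : Type*} [AddCommGroup A]

theorem CycTorsor.comp (T : CycTorsor n π π' u σ) {H : Type*} [Group H] (r : H →* G) :
    CycTorsor n (π.comp r) (π'.comp r) u σ :=
  ⟨T.pos, fun g s => T.map (r g) s, fun g s => T.comm (r g) s, T.surj, T.fib, T.pow, T.free⟩

/-! ### key S55/T-EX -/

theorem CycTorsor.u_pow (T : CycTorsor n π π' u σ) (k : ℕ) (s : Sg') : u ((σ ^ k) s) = u s :=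
  ((T.fib s _).2 ⟨k, rfl⟩).symm

theorem CycTorsor.pow_inj (T : CycTorsor n π π' u σ) (s : Sg') {k l : ℕ} (hk : k < n) (hl : l < n)
    (h : (σ ^ k) s = (σ ^ l) s) : k = l := by
  wlog hkl : k ≤ l generalizing k l
  · exact (this hl hk h.symm (le_of_not_ge hkl)).symm
  obtain ⟨d, rfl⟩ := Nat.exists_eq_add_of_le hkl
  have h1 : (σ ^ d) s = s := by
    rw [pow_add, Equiv.Perm.mul_apply] at h
    exact ((σ ^ k).injective h).symm
  have h2 := T.free s d h1
  have h3 : d = 0 := Nat.eq_zero_of_dvd_of_lt h2 (by omega)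
  omega

theorem CycTorsor.push_apply [Fintype Sg'] (T : CycTorsor n π π' u σ) (f : Sg' → A) (s : Sg') :
    push A u f (u s) = ∑ k ∈ Finset.range n, f ((σ ^ k) s) := by
  classical
  rw [Fermat.Agent.S55.push_apply]
  symm
  refine Finset.sum_bij (fun k _ => (σ ^ k) s) ?_ ?_ ?_ ?_
  · intro k _
    simp only [Finset.mem_filter, Finset.mem_univ, true_and]
    exact T.u_pow k s
  · intro k hk l hl h
    exact T.pow_inj s (Finset.mem_range.1 hk) (Finset.mem_range.1 hl) h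
  · intro s' hs'
    simp only [Finset.mem_filter, Finset.mem_univ, true_and] at hs'
    obtain ⟨k, hk⟩ := (T.fib s s').1 hs'.symm
    refine ⟨k % n, Finset.mem_range.2 (Nat.mod_lt _ T.pos), ?_⟩
    rw [← pow_eq_pow_mod k T.pow, hk]
  · intro k _
    rfl

theorem CycTorsor.sum_period [Fintype Sg'] (T : CycTorsor n π π' u σ) (f : Sg' → A)
    (hf : push A u f = 0) (b : Sg') (k m : ℕ) :
    ∑ j ∈ Finset.range (k + n * m), f ((σ ^ j) b) = ∑ j ∈ Finset.range k, f ((σ ^ j) b) := by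
  induction m with
  | zero => simp
  | succ m ih =>
    rw [Nat.mul_succ, ← add_assoc, Finset.sum_range_add, ih]
    have h := T.push_apply f ((σ ^ (k + n * m)) b)
    rw [hf] at h
    have h2 : ∑ x ∈ Finset.range n, f ((σ ^ (k + n * m + x)) b) = 0 := by
      rw [Pi.zero_apply] at h
      rw [h]
      refine Finset.sum_congr rfl fun x _ => ?_
      rw [add_comm (k + n * m) x, pow_add, Equiv.Perm.mul_apply]
    rw [h2, add_zero]

theorem CycTorsor.sum_eq_of_pow_eq [Fintype Sg'] (T : CycTorsor n π π' u σ) (f : Sg' → A)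
    (hf : push A u f = 0) (b : Sg') {k l : ℕ} (h : (σ ^ k) b = (σ ^ l) b) :
    ∑ j ∈ Finset.range k, f ((σ ^ j) b) = ∑ j ∈ Finset.range l, f ((σ ^ j) b) := by
  wlog hkl : k ≤ l generalizing k l
  · exact (this h.symm (le_of_not_ge hkl)).symm
  obtain ⟨d, rfl⟩ := Nat.exists_eq_add_of_le hkl
  have h1 : (σ ^ d) b = b := by
    rw [pow_add, Equiv.Perm.mul_apply] at h
    exact ((σ ^ k).injective h).symm
  obtain ⟨m, rfl⟩ := T.free b d h1
  exact (T.sum_period f hf b k m).symm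

theorem CycTorsor.exists_tw_eq [Fintype Sg'] (T : CycTorsor n π π' u σ) (f : Sg' → A)
    (hf : push A u f = 0) : ∃ h, tw A σ h = f := by
  classical
  obtain ⟨t, ht⟩ := T.surj.hasRightInverse
  have hk : ∀ s' : Sg', ∃ k : ℕ, (σ ^ k) (t (u s')) = s' := fun s' =>
    (T.fib _ _).1 (ht (u s'))
  choose κ hκ using hk
  refine ⟨fun s' => ∑ j ∈ Finset.range (κ s'), f ((σ ^ j) (t (u s'))), ?_⟩
  ext s'
  rw [tw_apply]
  have hu : u (σ s') = u s' := by simpa using T.u_pow 1 s'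
  have h1 : (σ ^ (κ (σ s'))) (t (u s')) = (σ ^ (κ s' + 1)) (t (u s')) := by
    have := hκ (σ s')
    rw [hu] at this
    rw [this, pow_succ', Equiv.Perm.mul_apply, hκ]
  rw [hu, T.sum_eq_of_pow_eq f hf _ h1, Finset.sum_range_succ, hκ]
  abel

theorem CycTorsor.push_tw_eq_zero [Fintype Sg'] (T : CycTorsor n π π' u σ) (b : Sg' → A) :
    push A u (tw A σ b) = 0 := by
  ext s
  obtain ⟨s', rfl⟩ := T.surj s
  rw [T.push_apply]
  simp only [tw_apply, Pi.zero_apply]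
  have h : ∀ k, b (σ ((σ ^ k) s')) = b ((σ ^ (k + 1)) s') := fun k => by
    rw [pow_succ', Equiv.Perm.mul_apply]
  simp only [h]
  rw [Finset.sum_range_sub (fun k => b ((σ ^ k) s')), T.pow]
  simp

theorem CycTorsor.push_surjective [Fintype Sg'] (T : CycTorsor n π π' u σ) :
    Function.Surjective (push A u) := by
  classical
  obtain ⟨t, ht⟩ := T.surj.hasRightInverse
  intro d
  refine ⟨fun s' => if s' = t (u s') then d (u s') else 0, ?_⟩
  ext s
  rw [Fermat.Agent.S55.push_apply, Finset.sum_eq_single (t s)]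
  · rw [ht s, if_pos rfl]
  · intro s' hs' hne
    simp only [Finset.mem_filter, Finset.mem_univ, true_and] at hs'
    rw [if_neg]
    rw [hs']
    exact hne
  · intro h
    exact absurd (by simp [ht s]) h

theorem CycTorsor.ex4 [Fintype Sg'] (T : CycTorsor n π π' u σ) (ρ : G →* AddMonoid.End A) :
    Ex4 (Fn π ρ) (Fn π' ρ) (Fn π' ρ) (Fn π ρ) (pull A u) (tw A σ) (push A u) where
  hi := isHom_pull ρ T.map
  hd := fun g f => by
    have h := isHom_pull ρ T.comm g f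
    change pull A σ (Fn π' ρ g f) - Fn π' ρ g f = Fn π' ρ g (pull A σ f - f)
    rw [h, map_sub]
  hn := isHom_push ρ T.map
  inj := fun f g h => funext fun s => by
    obtain ⟨s', rfl⟩ := T.surj s
    exact congrFun h s'
  exB := fun b => by
    constructor
    · intro h
      obtain ⟨t, ht⟩ := T.surj.hasRightInverse
      have h1 : ∀ s, b (σ s) = b s := fun s => sub_eq_zero.1 (congrFun h s)
      have h2 : ∀ (k : ℕ) s, b ((σ ^ k) s) = b s := by
        intro k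
        induction k with
        | zero => intro s; simp
        | succ k ih => intro s; rw [pow_succ', Equiv.Perm.mul_apply, h1, ih]
      refine ⟨fun s => b (t s), funext fun s' => ?_⟩
      obtain ⟨k, hk⟩ := (T.fib _ _).1 (ht (u s'))
      rw [pull_apply]
      conv_rhs => rw [← hk, h2]
    · rintro ⟨a, rfl⟩
      ext s
      have hu : u (σ s) = u s := by simpa using T.u_pow 1 s
      simp [hu]
  exC := fun c => ⟨fun h => T.exists_tw_eq c h, by rintro ⟨b, rfl⟩; exact T.push_tw_eq_zero b⟩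
  surj := T.push_surjective

theorem CycTorsor.push_pull [Fintype Sg'] (T : CycTorsor n π π' u σ) (f : Sg → A) :
    push A u (pull A u f) = n • f := by
  ext s
  obtain ⟨s', rfl⟩ := T.surj s
  rw [T.push_apply]
  simp only [pull_apply, T.u_pow, Finset.sum_const, Finset.card_range, Pi.smul_apply]

/-! ### `θ` -/

variable {𝓛 : Lvl G}

/-- `θ : H⁰(Fn Σ A) → H²(Fn Σ A)` -/
noncomputable def CycTorsor.theta [Fintype Sg'] (T : CycTorsor n π π' u σ)
    (ρ : G →* AddMonoid.End A) (hρ : Smooth 𝓛 ρ) (hπ' : SmoothSet π' 𝓛) :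
    ↥(H0 (Fn π ρ)) →+ H2 𝓛 (Fn π ρ) :=
  (T.ex4 ρ).Theta (smooth_Fn hρ hπ') (smooth_Fn hρ hπ')

section Gm

variable {Ω : Type*} [Field Ω] {α : G →* RingAut Ω}

/-- `ker θ` = norms -/
theorem CycTorsor.theta_eq_zero_iff [Fintype Sg'] (T : CycTorsor n π π' u σ) (h : GalAct 𝓛 α)
    (hπ' : SmoothSet π' 𝓛) (b : ↥(H0 (Fn π (gm α)))) :
    T.theta (gm α) h.smooth_gm hπ' b = 0 ↔
      ∃ c : ↥(H0 (Fn π' (gm α))), H0c (isHom_push (gm α) T.map) c = b :=
  (T.ex4 (gm α)).Theta_eq_zero_iff _ _ (H90 h π' hπ') b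

/-- `range θ = ker (Br Σ → Br Σ')` -/
theorem CycTorsor.exists_theta_eq_iff [Fintype Sg'] (T : CycTorsor n π π' u σ) (h : GalAct 𝓛 α)
    (hπ' : SmoothSet π' 𝓛) (x : H2 𝓛 (Fn π (gm α))) :
    (∃ b, T.theta (gm α) h.smooth_gm hπ' b = x) ↔ H2c 𝓛 (isHom_pull (gm α) T.map) x = 0 :=
  (T.ex4 (gm α)).exists_Theta_eq_iff _ _ (H90 h π' hπ') x

/-- `n θ = 0` -/
theorem CycTorsor.nsmul_theta [Fintype Sg'] (T : CycTorsor n π π' u σ) (h : GalAct 𝓛 α)
    (hπ' : SmoothSet π' 𝓛) (b : ↥(H0 (Fn π (gm α)))) :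
    n • T.theta (gm α) h.smooth_gm hπ' b = 0 := by
  rw [← map_nsmul, T.theta_eq_zero_iff h hπ']
  exact ⟨H0c (isHom_pull (gm α) T.map) b, Subtype.ext (T.push_pull b.1)⟩

end Gm

/-! ### key S55/T-NAT : naturality -/

/-- restriction to `r : H → G` -/
theorem CycTorsor.theta_res [Fintype Sg'] (T : CycTorsor n π π' u σ) (ρ : G →* AddMonoid.End A)
    (hρ : Smooth 𝓛 ρ) (hπ' : SmoothSet π' 𝓛) {H : Type*} [Group H] (r : H →* G)
    (b : ↥(H0 (Fn π ρ))) :
    res2 𝓛 (Fn π ρ) r (T.theta ρ hρ hπ' b) =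
      (T.comp r).theta (ρ.comp r) (hρ.comap r) (hπ'.comap r) (res0 (Fn π ρ) r b) :=
  Ex4.Theta_natural (T.ex4 ρ) _ _ ((T.comp r).ex4 (ρ.comp r)) _ _ (LvlMap.comap 𝓛 r)
    (isHomAlong_res _ r) (isHomAlong_res _ r) (isHomAlong_res _ r) (isHomAlong_res _ r)
    (fun _ => rfl) (fun _ => rfl) (fun _ => rfl) b

variable {Sg₁ Sg₁' : Type*} {π₁ : G →* Equiv.Perm Sg₁} {π₁' : G →* Equiv.Perm Sg₁'}
  {u₁ : Sg₁' → Sg₁} {σ₁ : Equiv.Perm Sg₁'}

/-- a morphism of torsors `(Σ₁' → Σ₁) ⟶ (Σ' → Σ)` (automatically cartesian) -/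
structure TorsorMap (u : Sg' → Sg) (σ : Equiv.Perm Sg') (u₁ : Sg₁' → Sg₁) (σ₁ : Equiv.Perm Sg₁')
    (v : Sg₁ → Sg) (v' : Sg₁' → Sg') : Prop where
  sq : ∀ t, u (v' t) = v (u₁ t)
  eq : ∀ t, v' (σ₁ t) = σ (v' t)

variable {v : Sg₁ → Sg} {v' : Sg₁' → Sg'}

theorem TorsorMap.eq_pow (M : TorsorMap u σ u₁ σ₁ v v') (k : ℕ) (t : Sg₁') :
    v' ((σ₁ ^ k) t) = (σ ^ k) (v' t) := by
  induction k with
  | zero => simp
  | succ k ih => rw [pow_succ', pow_succ', Equiv.Perm.mul_apply, Equiv.Perm.mul_apply, M.eq, ih]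

/-- `N₁ (f ∘ v') = (N f) ∘ v` -/
theorem TorsorMap.push_pull [Fintype Sg'] [Fintype Sg₁'] (M : TorsorMap u σ u₁ σ₁ v v')
    (T : CycTorsor n π π' u σ) (T₁ : CycTorsor n π₁ π₁' u₁ σ₁) (f : Sg' → A) :
    push A u₁ (pull A v' f) = pull A v (push A u f) := by
  ext t₀
  obtain ⟨t, rfl⟩ := T₁.surj t₀
  rw [T₁.push_apply, pull_apply, ← M.sq, T.push_apply]
  simp only [pull_apply, M.eq_pow]

/-- `(v_* f) ∘ u = v'_* (f ∘ u₁)`  (the square is cartesian) -/
theorem TorsorMap.pull_push [Fintype Sg₁] [Fintype Sg₁'] (M : TorsorMap u σ u₁ σ₁ v v')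
    (T : CycTorsor n π π' u σ) (T₁ : CycTorsor n π₁ π₁' u₁ σ₁) (f : Sg₁ → A) :
    pull A u (push A v f) = push A v' (pull A u₁ f) := by
  classical
  ext s'
  rw [pull_apply, Fermat.Agent.S55.push_apply, Fermat.Agent.S55.push_apply]
  symm
  refine Finset.sum_bij (fun t _ => u₁ t) ?_ ?_ ?_ ?_
  · intro t ht
    simp only [Finset.mem_filter, Finset.mem_univ, true_and] at ht ⊢
    rw [← M.sq, ht]
  · intro t ht t' ht' h
    simp only [Finset.mem_filter, Finset.mem_univ, true_and] at ht ht'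
    obtain ⟨k, rfl⟩ := (T₁.fib t t').1 h
    rw [M.eq_pow, ht] at ht'
    obtain ⟨m, rfl⟩ := T.free s' k ht'
    rw [pow_mul, T₁.pow, one_pow, Equiv.Perm.one_apply]
  · intro t₀ ht₀
    simp only [Finset.mem_filter, Finset.mem_univ, true_and] at ht₀
    obtain ⟨t, rfl⟩ := T₁.surj t₀
    rw [← M.sq] at ht₀
    obtain ⟨k, hk⟩ := (T.fib _ _).1 ht₀
    refine ⟨(σ₁ ^ k) t, ?_, T₁.u_pow k t⟩
    simp only [Finset.mem_filter, Finset.mem_univ, true_and]
    rw [M.eq_pow, hk]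
  · intro t _
    rfl

theorem TorsorMap.push_tw [Fintype Sg₁'] (M : TorsorMap u σ u₁ σ₁ v v') (f : Sg₁' → A) :
    push A v' (tw A σ₁ f) = tw A σ (push A v' f) := by
  classical
  ext s'
  rw [tw_apply, Fermat.Agent.S55.push_apply, Fermat.Agent.S55.push_apply,
    Fermat.Agent.S55.push_apply]
  simp only [tw_apply, Finset.sum_sub_distrib]
  congr 1
  refine Finset.sum_equiv σ₁ (fun t => ?_) (fun t _ => rfl)
  simp only [Finset.mem_filter, Finset.mem_univ, true_and]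
  rw [M.eq]
  exact ⟨fun h => by rw [h], fun h => σ.injective h⟩

theorem push_push_comp {X Y Z : Type*} [Fintype X] [Fintype Y] (a : Y → Z) (b : X → Y)
    (f : X → A) : push A a (push A b f) = push A (fun x => a (b x)) f := by
  classical
  ext z
  simp only [Fermat.Agent.S55.push_apply]
  rw [Finset.sum_comm' (t' := Finset.univ.filter (fun x => a (b x) = z))
    (s' := fun x => {b x})]
  · simp
  · intro y x
    simp only [Finset.mem_filter, Finset.mem_univ, true_and, Finset.mem_singleton]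
    constructor
    · rintro ⟨h1, rfl⟩
      exact ⟨rfl, h1⟩
    · rintro ⟨rfl, h2⟩
      exact ⟨h2, rfl⟩

theorem TorsorMap.push_push [Fintype Sg'] [Fintype Sg₁] [Fintype Sg₁']
    (M : TorsorMap u σ u₁ σ₁ v v') (f : Sg₁' → A) :
    push A u (push A v' f) = push A v (push A u₁ f) := by
  rw [push_push_comp, push_push_comp]
  congr 2
  exact funext M.sq

/-- `θ` commutes with pull back -/
theorem CycTorsor.theta_pull [Fintype Sg'] [Fintype Sg₁'] (T : CycTorsor n π π' u σ)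
    (T₁ : CycTorsor n π₁ π₁' u₁ σ₁) (M : TorsorMap u σ u₁ σ₁ v v') (hv : IsSetMap π π₁ v)
    (hv' : IsSetMap π' π₁' v') (ρ : G →* AddMonoid.End A) (hρ : Smooth 𝓛 ρ)
    (hπ' : SmoothSet π' 𝓛) (hπ₁' : SmoothSet π₁' 𝓛) (b : ↥(H0 (Fn π ρ))) :
    H2c 𝓛 (isHom_pull ρ hv) (T.theta ρ hρ hπ' b) =
      T₁.theta ρ hρ hπ₁' (H0c (isHom_pull ρ hv) b) :=
  Ex4.Theta_natural (T.ex4 ρ) _ _ (T₁.ex4 ρ) _ _ (LvlMap.id 𝓛)
    (isHom_pull ρ hv).along (isHom_pull ρ hv').along (isHom_pull ρ hv').along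
    (isHom_pull ρ hv).along
    (fun a => funext fun t => by simp only [pull_apply, M.sq])
    (fun a => funext fun t => by simp only [pull_apply, tw_apply, M.eq])
    (fun c => M.push_pull T T₁ c) b

/-- `θ` commutes with push forward -/
theorem CycTorsor.theta_push [Fintype Sg'] [Fintype Sg₁] [Fintype Sg₁']
    (T : CycTorsor n π π' u σ) (T₁ : CycTorsor n π₁ π₁' u₁ σ₁) (M : TorsorMap u σ u₁ σ₁ v v')
    (hv : IsSetMap π π₁ v) (hv' : IsSetMap π' π₁' v') (ρ : G →* AddMonoid.End A)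
    (hρ : Smooth 𝓛 ρ) (hπ' : SmoothSet π' 𝓛) (hπ₁' : SmoothSet π₁' 𝓛) (b : ↥(H0 (Fn π₁ ρ))) :
    H2c 𝓛 (isHom_push ρ hv) (T₁.theta ρ hρ hπ₁' b) =
      T.theta ρ hρ hπ' (H0c (isHom_push ρ hv) b) :=
  Ex4.Theta_natural (T₁.ex4 ρ) _ _ (T.ex4 ρ) _ _ (LvlMap.id 𝓛)
    (isHom_push ρ hv).along (isHom_push ρ hv').along (isHom_push ρ hv').along
    (isHom_push ρ hv).along
    (fun a => M.pull_push T T₁ a) (fun a => (M.push_tw a).symm) (fun c => M.push_push c) b

theorem push_post {X Y : Type*} [Fintype X] {B : Type*} [AddCommGroup B] (a : X → Y) (φ : A →+ B)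
    (f : X → A) : push B a (post X φ f) = post Y φ (push A a f) := by
  classical
  ext y
  simp only [Fermat.Agent.S55.push_apply, post_apply, map_sum]

/-- `θ` commutes with coefficient maps -/
theorem CycTorsor.theta_post [Fintype Sg'] (T : CycTorsor n π π' u σ) {B : Type*} [AddCommGroup B]
    (ρ : G →* AddMonoid.End A) (ρB : G →* AddMonoid.End B) (hρ : Smooth 𝓛 ρ) (hρB : Smooth 𝓛 ρB)
    (hπ' : SmoothSet π' 𝓛) {φ : A →+ B} (hφ : IsHom ρ ρB φ) (b : ↥(H0 (Fn π ρ))) :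
    H2c 𝓛 (isHom_post π ρ ρB hφ) (T.theta ρ hρ hπ' b) =
      T.theta ρB hρB hπ' (H0c (isHom_post π ρ ρB hφ) b) :=
  Ex4.Theta_natural (T.ex4 ρ) _ _ (T.ex4 ρB) _ _ (LvlMap.id 𝓛)
    (isHom_post π ρ ρB hφ).along (isHom_post π' ρ ρB hφ).along (isHom_post π' ρ ρB hφ).along
    (isHom_post π ρ ρB hφ).along
    (fun _ => rfl)
    (fun a => funext fun t => by simp only [post_apply, tw_apply, map_sub])
    (fun c => push_post u φ c) b

/-! ### key S55/T-BC : base change -/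

/-- the fibre product `Σ₁ ×_Σ Σ'` -/
def FibProd (v : Sg₁ → Sg) (u : Sg' → Sg) : Type _ := {x : Sg₁ × Sg' // v x.1 = u x.2}

/-- the action of `G` on the fibre product -/
def fibPerm (hv : IsSetMap π π₁ v) (hu : IsSetMap π π' u) : G →* Equiv.Perm (FibProd v u) where
  toFun g :=
    { toFun := fun x => ⟨(π₁ g x.1.1, π' g x.1.2), by
        change v (π₁ g x.1.1) = u (π' g x.1.2)
        rw [hv, hu, x.2]⟩
      invFun := fun x => ⟨((π₁ g)⁻¹ x.1.1, (π' g)⁻¹ x.1.2), by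
        change v ((π₁ g)⁻¹ x.1.1) = u ((π' g)⁻¹ x.1.2)
        rw [hv.inv, hu.inv, x.2]⟩
      left_inv := fun x => Subtype.ext (Prod.ext (by simp) (by simp))
      right_inv := fun x => Subtype.ext (Prod.ext (by simp) (by simp)) }
  map_one' := by
    ext x
    refine Subtype.ext (Prod.ext ?_ ?_)
    · change π₁ 1 x.1.1 = x.1.1
      rw [map_one]; rfl
    · change π' 1 x.1.2 = x.1.2
      rw [map_one]; rfl
  map_mul' g h := by
    ext x
    refine Subtype.ext (Prod.ext ?_ ?_)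
    · change π₁ (g * h) x.1.1 = π₁ g (π₁ h x.1.1)
      rw [map_mul]; rfl
    · change π' (g * h) x.1.2 = π' g (π' h x.1.2)
      rw [map_mul]; rfl

/-- the automorphism `id × σ` of the fibre product -/
def fibSigma (v : Sg₁ → Sg) (T : CycTorsor n π π' u σ) : Equiv.Perm (FibProd v u) where
  toFun x := ⟨(x.1.1, σ x.1.2), by
    change v x.1.1 = u (σ x.1.2)
    rw [x.2]
    exact (T.fib _ _).2 ⟨1, by simp⟩⟩
  invFun x := ⟨(x.1.1, σ⁻¹ x.1.2), by
    change v x.1.1 = u (σ⁻¹ x.1.2)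
    rw [x.2]
    exact ((T.fib _ _).2 ⟨1, by simp⟩).symm⟩
  left_inv := fun x => Subtype.ext (Prod.ext rfl (by simp))
  right_inv := fun x => Subtype.ext (Prod.ext rfl (by simp))

theorem fibSigma_pow_fst (T : CycTorsor n π π' u σ) (k : ℕ) (x : FibProd v u) :
    (((fibSigma v T) ^ k) x).1.1 = x.1.1 := by
  induction k with
  | zero => rfl
  | succ k ih =>
    rw [pow_succ', Equiv.Perm.mul_apply]
    exact ih

theorem fibSigma_pow_snd (T : CycTorsor n π π' u σ) (k : ℕ) (x : FibProd v u) :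
    (((fibSigma v T) ^ k) x).1.2 = (σ ^ k) x.1.2 := by
  induction k with
  | zero => rfl
  | succ k ih =>
    rw [pow_succ', Equiv.Perm.mul_apply, pow_succ', Equiv.Perm.mul_apply, ← ih]
    rfl

theorem CycTorsor.baseChange (T : CycTorsor n π π' u σ) (hv : IsSetMap π π₁ v) :
    CycTorsor n π₁ (fibPerm hv T.map) (fun x : FibProd v u => x.1.1) (fibSigma v T) where
  pos := T.pos
  map := fun _ _ => rfl
  comm := fun g x => Subtype.ext (Prod.ext rfl (T.comm g x.1.2))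
  surj := fun t => by
    obtain ⟨s, hs⟩ := T.surj (v t)
    exact ⟨⟨(t, s), hs.symm⟩, rfl⟩
  fib := fun x y => by
    constructor
    · intro h
      have h' : x.1.1 = y.1.1 := h
      have h1 : u x.1.2 = u y.1.2 := by rw [← x.2, ← y.2, h']
      obtain ⟨k, hk⟩ := (T.fib _ _).1 h1
      refine ⟨k, Subtype.ext (Prod.ext ?_ ?_)⟩
      · rw [fibSigma_pow_fst, h']
      · rw [fibSigma_pow_snd, hk]
    · rintro ⟨k, rfl⟩
      exact (fibSigma_pow_fst T k x).symm
  pow := by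
    ext x
    refine Subtype.ext (Prod.ext ?_ ?_)
    · rw [fibSigma_pow_fst]; rfl
    · rw [fibSigma_pow_snd, T.pow]; rfl
  free := fun x k h => T.free x.1.2 k (by rw [← fibSigma_pow_snd T k x, h])

theorem CycTorsor.baseChange_map (T : CycTorsor n π π' u σ) :
    TorsorMap u σ (fun x : FibProd v u => x.1.1) (fibSigma v T) v (fun x => x.1.2) :=
  ⟨fun x => x.2.symm, fun _ => rfl⟩

theorem isSetMap_fibProd_snd (hv : IsSetMap π π₁ v) (hu : IsSetMap π π' u) :
    IsSetMap π' (fibPerm hv hu) (fun x : FibProd v u => x.1.2) := fun _ _ => rfl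

theorem smoothSet_fibPerm (hv : IsSetMap π π₁ v) (hu : IsSetMap π π' u) (h₁ : SmoothSet π₁ 𝓛)
    (h' : SmoothSet π' 𝓛) : SmoothSet (fibPerm hv hu) 𝓛 := by
  obtain ⟨U, hU, h1⟩ := h₁
  obtain ⟨V, hV, h2⟩ := h'
  obtain ⟨W, hW, hWU⟩ := 𝓛.inter U hU V hV
  refine ⟨W, hW, fun w hw => ?_⟩
  ext x
  refine Subtype.ext (Prod.ext ?_ ?_)
  · change π₁ w x.1.1 = x.1.1
    rw [h1 w (hWU hw).1]; rfl
  · change π' w x.1.2 = x.1.2
    rw [h2 w (hWU hw).2]; rfl

instance [Finite Sg₁] [Finite Sg'] : Finite (FibProd v u) := Subtype.finite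

end Fermat.Agent.S55.T
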