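import Fermat.Agent.S55.T.Kummer
import Fermat.Agent.S55.T.Torsor
import Fermat.Agent.S55.E.Chi

/-!
# S55 / layer T : the instances `(GQ, lvlQ)` and `(Dq q, lvlD q)`     (key S55/T-INST)

* `alQ : GQ →* RingAut Qb`, `gm alQ = rhoGm`;
* `galAct_Q : GalAct lvlQ alQ` (smooth: `x ∈ ℚ⟮x⟯`; closed: `g` fixes `F` pointwise ⇒
  `g ∈ F.fixingSubgroup`; no Galois correspondence needed);
* `galAct_D q` by `GalAct.comap`;
* `zetaP p`, `kumData_Q p : KumData alQ p (cycloChar p) (zetaP p)`
  (`modularCyclotomicCharacter.spec` / Prelude `cycloExp`).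
-/

set_option autoImplicit false

noncomputable section

namespace Fermat.Agent.S55.T

open ExtCitation

/-- the tautological action of `GQ` on `ℚ̄` -/
def alQ : GQ →* RingAut Qb where
  toFun g := (g : Qb ≃+* Qb)
  map_one' := rfl
  map_mul' _ _ := rfl

@[simp] theorem alQ_apply (g : GQ) (x : Qb) : alQ g x = g x := rfl

theorem gm_alQ : gm alQ = rhoGm := rfl

theorem galAct_Q : GalAct lvlQ alQ where
  smooth x := by
    have hx : IsIntegral ℚ x := (AlgebraicClosure.isAlgebraic ℚ).isIntegral.isIntegral x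
    refine ⟨_, ⟨IntermediateField.adjoin ℚ {x}, IntermediateField.adjoin.finiteDimensional hx, rfl⟩,
      fun u hu => ?_⟩
    exact (IntermediateField.mem_fixingSubgroup_iff _ u).1 hu x
      (IntermediateField.mem_adjoin_simple_self ℚ x)
  closed := by
    rintro _ ⟨F, -, rfl⟩ g hg
    rw [IntermediateField.mem_fixingSubgroup_iff]
    intro x hx
    exact hg x fun u hu => (IntermediateField.mem_fixingSubgroup_iff _ u).1 hu x hx

theorem galAct_D (q : Nat.Primes) : GalAct (lvlD q) (alQ.comp (Dq q).subtype) :=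
  galAct_Q.comap _

theorem exists_zetaP (p : ℕ) [Fact p.Prime] : ∃ ζ : Qbˣ, IsPrimitiveRoot ζ p := by
  haveI : NeZero p := ⟨(Fact.out : p.Prime).ne_zero⟩
  obtain ⟨z, hz⟩ := HasEnoughRootsOfUnity.exists_primitiveRoot Qb p
  exact ⟨(hz.isUnit (NeZero.ne p)).unit, IsPrimitiveRoot.coe_units_iff.1 (by simpa using hz)⟩

/-- a primitive `p`-th root of unity -/
def zetaP (p : ℕ) [Fact p.Prime] : Qbˣ := (exists_zetaP p).choose

theorem zetaP_spec (p : ℕ) [Fact p.Prime] : IsPrimitiveRoot (zetaP p) p := (exists_zetaP p).choose_spec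

theorem kumData_Q (p : ℕ) [Fact p.Prime] : KumData alQ p (cycloChar p) (zetaP p) where
  prim := zetaP_spec p
  act g := by
    apply Units.ext
    rw [Units.val_pow_eq_pow_val]
    refine E.cycloChar_spec p g ?_
    rw [← Units.val_pow_eq_pow_val, (zetaP_spec p).pow_eq_one, Units.val_one]
  root x := by
    obtain ⟨z, hz⟩ := IsAlgClosed.exists_pow_nat_eq (x : Qb) (Fact.out : p.Prime).pos
    have hz0 : z ≠ 0 := by
      rintro rfl
      rw [zero_pow (Fact.out : p.Prime).ne_zero] at hz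
      exact x.ne_zero hz.symm
    exact ⟨Units.mk0 z hz0, Units.ext (by rw [Units.val_pow_eq_pow_val, Units.val_mk0, hz])⟩

theorem kumData_D (p : ℕ) [Fact p.Prime] (q : Nat.Primes) :
    KumData (alQ.comp (Dq q).subtype) p ((cycloChar p).comp (Dq q).subtype) (zetaP p) :=
  (kumData_Q p).comp _

/-- Hilbert 90 over `GQ` -/
theorem H90_Q {Sg : Type*} [Finite Sg] (π : GQ →* Equiv.Perm Sg) (hπ : SmoothSet π lvlQ)
    (x : H1 lvlQ (Fn π rhoGm)) : x = 0 :=
  H90 galAct_Q π hπ x

/-- Hilbert 90 over `Dq q` -/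
theorem H90_D (q : Nat.Primes) {Sg : Type*} [Finite Sg] (π : ↥(Dq q) →* Equiv.Perm Sg)
    (hπ : SmoothSet π (lvlD q)) (x : H1 (lvlD q) (Fn π (rhoGm.comp (Dq q).subtype))) : x = 0 :=
  H90 (galAct_D q) π hπ x

end Fermat.Agent.S55.T
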