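import Fermat.Agent.S55.Coh.LES

/-!
# S55 / layer T : the map `Θ : H⁰(D) → H²(A)` of a four term exact sequence

`0 → A --i--> B --∂--> C --n--> D → 0` exact, equivariant (`Ex4`), `B`, `C` smooth.
`Θ = δ¹ ∘ δ⁰` through `I = ker n`.
* `Ex4.Theta_eq`   : explicit cochain description (ANY choice of lifts computes `Θ`);
* `Ex4.Theta_eq_zero_iff` : `ker Θ = n (H⁰ C)` if `H¹(B) = 0`;
* `Ex4.exists_Theta_eq_iff` : `range Θ = ker (H² A → H² B)` if `H¹(C) = 0`;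
* `Ex4.Theta_natural` : naturality for morphisms of four term sequences along `r : H →* G`.
-/

set_option autoImplicit false

namespace Fermat.Agent.S55.T

section Defs

variable {G : Type*} [Group G]
variable {A B C D : Type*} [AddCommGroup A] [AddCommGroup B] [AddCommGroup C] [AddCommGroup D]

/-- restriction of an action to a stable subgroup -/
def subAct (ρ : G →* AddMonoid.End C) (I : AddSubgroup C) (h : ∀ g, ∀ c ∈ I, ρ g c ∈ I) :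
    G →* AddMonoid.End I where
  toFun g := AddMonoidHom.codRestrict ((show C →+ C from ρ g).comp I.subtype) I
    (fun c => h g c c.2)
  map_one' := by
    ext c
    change ρ 1 (c : C) = c
    rw [map_one]; rfl
  map_mul' g g' := by
    ext c
    change ρ (g * g') (c : C) = ρ g (ρ g' (c : C))
    rw [map_mul]; rfl

@[simp] theorem coe_subAct (ρ : G →* AddMonoid.End C) (I : AddSubgroup C)
    (h : ∀ g, ∀ c ∈ I, ρ g c ∈ I) (g : G) (c : I) : ((subAct ρ I h g c : I) : C) = ρ g c := rfl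

/-- a four term exact sequence of `G`-modules -/
structure Ex4 (ρA : G →* AddMonoid.End A) (ρB : G →* AddMonoid.End B) (ρC : G →* AddMonoid.End C)
    (ρD : G →* AddMonoid.End D) (i : A →+ B) (dd : B →+ C) (n : C →+ D) : Prop where
  hi : IsHom ρA ρB i
  hd : IsHom ρB ρC dd
  hn : IsHom ρC ρD n
  inj : Function.Injective i
  exB : ∀ b, dd b = 0 ↔ ∃ a, i a = b
  exC : ∀ c, n c = 0 ↔ ∃ b, dd b = c
  surj : Function.Surjective n

variable {ρA : G →* AddMonoid.End A} {ρB : G →* AddMonoid.End B} {ρC : G →* AddMonoid.End C}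
  {ρD : G →* AddMonoid.End D} {i : A →+ B} {dd : B →+ C} {n : C →+ D}

/-- the action on `I = ker n` -/
def Ex4.rhoI (E : Ex4 ρA ρB ρC ρD i dd n) : G →* AddMonoid.End n.ker :=
  subAct ρC n.ker (fun g c hc => by
    rw [AddMonoidHom.mem_ker] at hc ⊢
    rw [E.hn, hc, map_zero])

/-- `B → I` -/
def Ex4.pr (E : Ex4 ρA ρB ρC ρD i dd n) : B →+ n.ker :=
  dd.codRestrict n.ker (fun b => (E.exC _).2 ⟨b, rfl⟩)

@[simp] theorem Ex4.coe_pr (E : Ex4 ρA ρB ρC ρD i dd n) (b : B) : ((E.pr b : n.ker) : C) = dd b :=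
  rfl

theorem Ex4.S1 (E : Ex4 ρA ρB ρC ρD i dd n) : SES ρA ρB E.rhoI i E.pr where
  hi := E.hi
  hj := fun g b => Subtype.ext (E.hd g b)
  inj := E.inj
  surj := fun c => by
    obtain ⟨b, hb⟩ := (E.exC c.1).1 c.2
    exact ⟨b, Subtype.ext hb⟩
  exact := fun b => by
    rw [← E.exB b]
    exact ⟨fun h => congrArg Subtype.val h, fun h => Subtype.ext h⟩

theorem Ex4.S2 (E : Ex4 ρA ρB ρC ρD i dd n) : SES E.rhoI ρC ρD n.ker.subtype n where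
  hi := fun _ _ => rfl
  hj := E.hn
  inj := Subtype.val_injective
  surj := E.surj
  exact := fun c => ⟨fun h => ⟨⟨c, h⟩, rfl⟩, by rintro ⟨a, rfl⟩; exact a.2⟩

variable {𝓛 : Lvl G}

/-- `Θ : H⁰(D) → H²(A)` -/
noncomputable def Ex4.Theta (E : Ex4 ρA ρB ρC ρD i dd n) (hB : Smooth 𝓛 ρB) (hC : Smooth 𝓛 ρC) :
    ↥(H0 ρD) →+ H2 𝓛 ρA :=
  (delta1 E.S1 hB).comp (delta0 E.S2 hC)

/-- ANY choice of lifts computes `Θ` -/
theorem Ex4.Theta_eq (E : Ex4 ρA ρB ρC ρD i dd n) (hB : Smooth 𝓛 ρB) (hC : Smooth 𝓛 ρC)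
    (d : ↥(H0 ρD)) (c : C) (hc : n c = d) (x : G → B) (hx : LC1 𝓛 x)
    (hxc : ∀ g, dd (x g) = ρC g c - c) (w : ↥(Z2 𝓛 ρA))
    (hw : ∀ g h, i (w.1 g h) = d1 ρB x g h) : E.Theta hB hC d = H2.mk 𝓛 ρA w := by
  obtain ⟨z, hz⟩ := E.S2.exists_Z1_of_lift (𝓛 := 𝓛) hC c (by rw [hc]; exact d.2)
  rw [Ex4.Theta, AddMonoidHom.comp_apply, delta0_eq E.S2 hC d c hc z hz]
  exact delta1_eq E.S1 hB z x hx (fun g => Subtype.ext ((hxc g).trans (hz g).symm)) w hw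

theorem Ex4.exists_Theta_eq (E : Ex4 ρA ρB ρC ρD i dd n) (hB : Smooth 𝓛 ρB) (hC : Smooth 𝓛 ρC)
    (d : ↥(H0 ρD)) : ∃ (c : C) (x : G → B) (w : ↥(Z2 𝓛 ρA)), n c = d ∧ LC1 𝓛 x ∧
      (∀ g, dd (x g) = ρC g c - c) ∧ (∀ g h, i (w.1 g h) = d1 ρB x g h) ∧
      E.Theta hB hC d = H2.mk 𝓛 ρA w := by
  obtain ⟨c, z, hc, hz, -⟩ := exists_delta0_eq (𝓛 := 𝓛) E.S2 hC d
  obtain ⟨x, w, hx, hxz, hw, -⟩ := exists_delta1_eq E.S1 hB z
  have hxc : ∀ g, dd (x g) = ρC g c - c := fun g =>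
    (congrArg Subtype.val (hxz g)).trans (hz g)
  exact ⟨c, x, w, hc, hx, hxc, hw, E.Theta_eq hB hC d c hc x hx hxc w hw⟩

/-- `ker Θ = n (H⁰ C)` if `H¹(B) = 0` -/
theorem Ex4.Theta_eq_zero_iff (E : Ex4 ρA ρB ρC ρD i dd n) (hB : Smooth 𝓛 ρB)
    (hC : Smooth 𝓛 ρC) (h1B : ∀ y : H1 𝓛 ρB, y = 0) (d : ↥(H0 ρD)) :
    E.Theta hB hC d = 0 ↔ ∃ c : ↥(H0 ρC), H0c E.hn c = d := by
  rw [Ex4.Theta, AddMonoidHom.comp_apply, delta1_eq_zero_iff, ← delta0_eq_zero_iff E.S2 hC d]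
  constructor
  · rintro ⟨y, hy⟩
    rw [← hy, h1B y, map_zero]
  · intro h
    exact ⟨0, by rw [h, map_zero]⟩

/-- `range Θ = ker (H² A → H² B)` if `H¹(C) = 0` -/
theorem Ex4.exists_Theta_eq_iff (E : Ex4 ρA ρB ρC ρD i dd n) (hB : Smooth 𝓛 ρB)
    (hC : Smooth 𝓛 ρC) (h1C : ∀ y : H1 𝓛 ρC, y = 0) (a : H2 𝓛 ρA) :
    (∃ d, E.Theta hB hC d = a) ↔ H2c 𝓛 E.hi a = 0 := by
  rw [show H2c 𝓛 E.hi a = H2c 𝓛 E.S1.hi a from rfl, H2c_i_eq_zero_iff E.S1 hB]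
  constructor
  · rintro ⟨d, rfl⟩
    exact ⟨delta0 E.S2 hC d, rfl⟩
  · rintro ⟨x, rfl⟩
    obtain ⟨d, rfl⟩ := (H1c_i_eq_zero_iff E.S2 hC x).1 (h1C _)
    exact ⟨d, rfl⟩

end Defs

section Naturality

variable {G H : Type*} [Group G] [Group H] {𝓛G : Lvl G} {𝓛H : Lvl H}
variable {A B C D A' B' C' D' : Type*} [AddCommGroup A] [AddCommGroup B] [AddCommGroup C]
  [AddCommGroup D] [AddCommGroup A'] [AddCommGroup B'] [AddCommGroup C'] [AddCommGroup D']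
variable {ρA : G →* AddMonoid.End A} {ρB : G →* AddMonoid.End B} {ρC : G →* AddMonoid.End C}
  {ρD : G →* AddMonoid.End D} {i : A →+ B} {dd : B →+ C} {n : C →+ D}
variable {ρA' : H →* AddMonoid.End A'} {ρB' : H →* AddMonoid.End B'} {ρC' : H →* AddMonoid.End C'}
  {ρD' : H →* AddMonoid.End D'} {i' : A' →+ B'} {dd' : B' →+ C'} {n' : C' →+ D'}
variable {r : H →* G} {φA : A →+ A'} {φB : B →+ B'} {φC : C →+ C'} {φD : D →+ D'}

theorem Ex4.Theta_natural (E : Ex4 ρA ρB ρC ρD i dd n) (hB : Smooth 𝓛G ρB) (hC : Smooth 𝓛G ρC)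
    (E' : Ex4 ρA' ρB' ρC' ρD' i' dd' n') (hB' : Smooth 𝓛H ρB') (hC' : Smooth 𝓛H ρC')
    (hr : LvlMap 𝓛G 𝓛H r) (hA : IsHomAlong ρA ρA' r φA) (hBB : IsHomAlong ρB ρB' r φB)
    (hCC : IsHomAlong ρC ρC' r φC) (hD : IsHomAlong ρD ρD' r φD)
    (hi : ∀ a, i' (φA a) = φB (i a)) (hd : ∀ b, dd' (φB b) = φC (dd b))
    (hn : ∀ c, n' (φC c) = φD (n c)) (d : ↥(H0 ρD)) :
    H2map hr hA (E.Theta hB hC d) = E'.Theta hB' hC' (H0map hD d) := by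
  obtain ⟨c, x, w, hc, hx, hxc, hw, h⟩ := E.exists_Theta_eq hB hC d
  rw [h, H2map_mk]
  refine (E'.Theta_eq hB' hC' _ (φC c) (by rw [hn, hc]; rfl) (pp1 r φB x) (hx.pp hr φB)
    (fun g => ?_) _ (fun g h => ?_)).symm
  · rw [pp1_apply, hd, hxc, map_sub, hCC]
  · rw [coe_Z2map, pp2_apply, hi, hw, ← pp2_d1 hBB]; rfl

end Naturality

end Fermat.Agent.S55.T
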