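import Fermat.Agent.S55.Coh.LES
import Fermat.Agent.S55.Coh.FnBasic

/-!
# S55 / layer T : abstract Galois actions, `𝔾_m`, generalities on `Fn`

`G` a group with levels `𝓛`, acting on a field `Ω` by `α : G →* RingAut Ω`.
`GalAct 𝓛 α` : the action is smooth and the levels are "closed" (`g` fixes `Ω^U` ⇒ `g ∈ U`).
Instances (file `T/Inst.lean`): `(GQ, lvlQ)`, `(Dq q, lvlD q)`; stable under `Lvl.comap`.
-/

set_option autoImplicit false

namespace Fermat.Agent.S55.T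

variable {G : Type*} [Group G] (𝓛 : Lvl G) {Ω : Type*} [Field Ω] (α : G →* RingAut Ω)

/-- the action on `Additive Ωˣ` -/
def gm : G →* AddMonoid.End (Additive Ωˣ) where
  toFun g := MonoidHom.toAdditive (Units.map ((α g : Ω ≃+* Ω) : Ω →* Ω))
  map_one' := by
    ext x
    change (α 1 : Ω ≃+* Ω) ((x.toMul : Ωˣ) : Ω) = ((x.toMul : Ωˣ) : Ω)
    rw [map_one]; rfl
  map_mul' g h := by
    ext x
    change (α (g * h) : Ω ≃+* Ω) ((x.toMul : Ωˣ) : Ω) = α g (α h ((x.toMul : Ωˣ) : Ω))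
    rw [map_mul]; rfl

theorem gm_apply (g : G) (x : Additive Ωˣ) :
    gm α g x = Additive.ofMul (Units.map ((α g : Ω ≃+* Ω) : Ω →* Ω) x.toMul) := rfl

theorem coe_gm_apply (g : G) (x : Additive Ωˣ) :
    (((gm α g x).toMul : Ωˣ) : Ω) = α g ((x.toMul : Ωˣ) : Ω) := rfl

/-- an abstract "Galois action" -/
structure GalAct : Prop where
  smooth : ∀ x : Ω, ∃ U ∈ 𝓛.sets, ∀ u ∈ U, α u x = x
  closed : ∀ U ∈ 𝓛.sets, ∀ g : G, (∀ x : Ω, (∀ u ∈ U, α u x = x) → α g x = x) → g ∈ U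

variable {𝓛 α}

theorem GalAct.comap (h : GalAct 𝓛 α) {H : Type*} [Group H] (r : H →* G) :
    GalAct (𝓛.comap r) (α.comp r) where
  smooth x := by
    obtain ⟨U, hU, hx⟩ := h.smooth x
    exact ⟨_, ⟨U, hU, rfl⟩, fun u hu => hx (r u) hu⟩
  closed := by
    rintro _ ⟨U, hU, rfl⟩ g hg
    exact h.closed U hU (r g) fun x hx => hg x fun u hu => hx (r u) hu

theorem gm_comp {H : Type*} [Group H] (r : H →* G) : gm (α.comp r) = (gm α).comp r := rfl

theorem GalAct.smooth_gm (h : GalAct 𝓛 α) : Smooth 𝓛 (gm α) := by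
  intro x
  obtain ⟨U, hU, hx⟩ := h.smooth ((x.toMul : Ωˣ) : Ω)
  refine ⟨U, hU, fun u hu => ?_⟩
  apply Additive.toMul.injective
  apply Units.ext
  exact hx u hu

end Fermat.Agent.S55.T

namespace Fermat.Agent.S55

/-! ### generalities on `Fn` (used by T) -/

variable {G : Type*} [Group G] {𝓛 : Lvl G} {Sg : Type*} (π : G →* Equiv.Perm Sg)
variable {A B C : Type*} [AddCommGroup A] [AddCommGroup B] [AddCommGroup C]
  {ρA : G →* AddMonoid.End A} {ρB : G →* AddMonoid.End B} {ρC : G →* AddMonoid.End C}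

theorem Fn_comp {H : Type*} [Group H] (ρ : G →* AddMonoid.End A) (r : H →* G) :
    Fn (π.comp r) (ρ.comp r) = (Fn π ρ).comp r := rfl

theorem SmoothSet.comap {π : G →* Equiv.Perm Sg} (h : SmoothSet π 𝓛) {H : Type*} [Group H]
    (r : H →* G) : SmoothSet (π.comp r) (𝓛.comap r) := by
  obtain ⟨U, hU, hu⟩ := h
  exact ⟨_, ⟨U, hU, rfl⟩, fun u hu' => hu (r u) hu'⟩

theorem Smooth.comap {ρ : G →* AddMonoid.End A} (h : Smooth 𝓛 ρ) {H : Type*} [Group H]
    (r : H →* G) : Smooth (𝓛.comap r) (ρ.comp r) := by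
  intro a
  obtain ⟨U, hU, hu⟩ := h a
  exact ⟨_, ⟨U, hU, rfl⟩, fun u hu' => hu (r u) hu'⟩

theorem smooth_Fn [Finite Sg] {π : G →* Equiv.Perm Sg} {ρ : G →* AddMonoid.End A}
    (hρ : Smooth 𝓛 ρ) (hπ : SmoothSet π 𝓛) : Smooth 𝓛 (Fn π ρ) := by
  intro f
  obtain ⟨U, hU, hu⟩ := hπ
  obtain ⟨V, hV, hv⟩ := hρ.exists_of_finite (Set.finite_range f)
  obtain ⟨W, hW, hWU⟩ := 𝓛.inter U hU V hV
  refine ⟨W, hW, fun u hu' => ?_⟩
  ext s
  rw [Fn_apply, hu u (hWU hu').1, inv_one, Equiv.Perm.one_apply, hv u (hWU hu').2 _ ⟨s, rfl⟩]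

theorem SES.fn {i : A →+ B} {j : B →+ C} (S : SES ρA ρB ρC i j) :
    SES (Fn π ρA) (Fn π ρB) (Fn π ρC) (post Sg i) (post Sg j) where
  hi := isHom_post π ρA ρB S.hi
  hj := isHom_post π ρB ρC S.hj
  inj := fun f g h => funext fun s => S.inj (congrFun h s)
  surj := fun f => ⟨fun s => S.sec (f s), funext fun s => S.j_sec _⟩
  exact := fun f => by
    constructor
    · intro h
      exact ⟨fun s => Function.invFun i (f s), funext fun s => S.i_invFun (congrFun h s)⟩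
    · rintro ⟨a, rfl⟩
      exact funext fun s => S.comp_eq_zero _

end Fermat.Agent.S55
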