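import Fermat.Agent.S55.T.H90
import Fermat.Agent.S55.Coh.Arith

/-!
# S55 / layer T : the Kummer sequence   (key S55/T-KUM)

`0 → T → 𝔾_m --p--> 𝔾_m → 0`, `T = ZMod p` with the action `rhoChi χ`.
With `H90`: `H²(Fn π T) = H²(Fn π 𝔾_m)[p]`, `H¹(Fn π T) = H⁰(Fn π 𝔾_m)/p`.
Everything follows from `Coh/LES.lean` (`H2c_i_eq_zero_iff`, `H2c_j_eq_zero_iff`,
`H1c_i_eq_zero_iff`, `delta0_eq_zero_iff`), `SES.fn`, `smooth_Fn`, `H90`.
-/

set_option autoImplicit false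

namespace Fermat.Agent.S55.T

variable {G : Type*} [Group G] {𝓛 : Lvl G} {Ω : Type*} [Field Ω] (α : G →* RingAut Ω)

/-- the data of the Kummer sequence -/
structure KumData (p : ℕ) (χ : G →* (ZMod p)ˣ) (ζ : Ωˣ) : Prop where
  prim : IsPrimitiveRoot ζ p
  act : ∀ g, Units.map ((α g : Ω ≃+* Ω) : Ω →* Ω) ζ = ζ ^ ((χ g : (ZMod p)ˣ) : ZMod p).val
  root : ∀ x : Ωˣ, ∃ y : Ωˣ, y ^ p = x

/-- `k ↦ ζ ^ k` -/
noncomputable def iotaZ (p : ℕ) (ζ : Ωˣ) (hζ : ζ ^ p = 1) : ZMod p →+ Additive Ωˣ :=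
  ZMod.lift p ⟨zmultiplesHom (Additive Ωˣ) (Additive.ofMul ζ), by
    rw [zmultiplesHom_apply, natCast_zsmul, ← ofMul_pow, hζ]; rfl⟩

/-- multiplication by `p` -/
def mulP (p : ℕ) (A : Type*) [AddCommGroup A] : A →+ A := nsmulAddMonoidHom p

@[simp] theorem mulP_apply (p : ℕ) {A : Type*} [AddCommGroup A] (a : A) : mulP p A a = p • a := rfl

variable {α} {p : ℕ} [Fact p.Prime] {χ : G →* (ZMod p)ˣ} {ζ : Ωˣ}

theorem iotaZ_apply (hζ : ζ ^ p = 1) (k : ZMod p) :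
    iotaZ p ζ hζ k = Additive.ofMul (ζ ^ k.val) := by
  haveI : NeZero p := ⟨(Fact.out : p.Prime).ne_zero⟩
  have h1 : k = (((k.val : ℕ) : ℤ) : ZMod p) := by
    rw [Int.cast_natCast, ZMod.natCast_zmod_val]
  conv_lhs => rw [h1]
  rw [iotaZ, ZMod.lift_coe]
  change zmultiplesHom (Additive Ωˣ) (Additive.ofMul ζ) ((k.val : ℕ) : ℤ) = _
  rw [zmultiplesHom_apply, natCast_zsmul, ← ofMul_pow]

theorem pow_val_mul (hζ : ζ ^ p = 1) (a b : ZMod p) : ζ ^ (a * b).val = (ζ ^ a.val) ^ b.val := by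
  rw [ZMod.val_mul, ← pow_mul, ← pow_eq_pow_mod _ hζ]

theorem KumData.comp (K : KumData α p χ ζ) {H : Type*} [Group H] (r : H →* G) :
    KumData (α.comp r) p (χ.comp r) ζ :=
  ⟨K.prim, fun g => K.act (r g), K.root⟩

/-- the Kummer sequence -/
theorem KumData.ses (K : KumData α p χ ζ) :
    SES (rhoChi χ) (gm α) (gm α) (iotaZ p ζ K.prim.pow_eq_one) (mulP p _) where
  hi := fun g k => by
    rw [rhoChi_apply, iotaZ_apply, iotaZ_apply, gm_apply, toMul_ofMul,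
      map_pow (Units.map ((α g : Ω ≃+* Ω) : Ω →* Ω)), K.act g, pow_val_mul K.prim.pow_eq_one]
  hj := fun g x => by
    rw [mulP_apply, mulP_apply, map_nsmul]
  inj := fun k k' h => by
    haveI : NeZero p := ⟨(Fact.out : p.Prime).ne_zero⟩
    rw [iotaZ_apply, iotaZ_apply] at h
    exact ZMod.val_injective p (K.prim.pow_inj (ZMod.val_lt k) (ZMod.val_lt k')
      (Additive.ofMul.injective h))
  surj := fun x => by
    obtain ⟨y, hy⟩ := K.root x.toMul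
    exact ⟨Additive.ofMul y, by rw [mulP_apply, ← ofMul_pow, hy]; rfl⟩
  exact := fun b => by
    haveI : NeZero p := ⟨(Fact.out : p.Prime).ne_zero⟩
    constructor
    · intro h
      have h1 : (b.toMul : Ωˣ) ^ p = 1 := by
        have := congrArg Additive.toMul h
        rwa [mulP_apply, toMul_nsmul] at this
      have h2 : ((b.toMul : Ωˣ) : Ω) ^ p = 1 := by
        rw [← Units.val_pow_eq_pow_val, h1, Units.val_one]
      obtain ⟨i, hi, hib⟩ := (IsPrimitiveRoot.coe_units_iff.2 K.prim).eq_pow_of_pow_eq_one h2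
      refine ⟨(i : ZMod p), ?_⟩
      rw [iotaZ_apply, ZMod.val_natCast_of_lt hi]
      apply Additive.toMul.injective
      apply Units.ext
      rw [toMul_ofMul, Units.val_pow_eq_pow_val, hib]
    · rintro ⟨k, rfl⟩
      rw [mulP_apply, iotaZ_apply, ← ofMul_pow, ← pow_mul, mul_comm, pow_mul, K.prim.pow_eq_one,
        one_pow]
      rfl

/-- a coefficient map which is multiplication by `p` induces multiplication by `p` on `H²` -/
theorem H2c_eq_nsmul {A : Type*} [AddCommGroup A] {ρ : G →* AddMonoid.End A} {φ : A →+ A}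
    (hφ : IsHom ρ ρ φ) (m : ℕ) (h : ∀ a, φ a = m • a) (b : H2 𝓛 ρ) : H2c 𝓛 hφ b = m • b := by
  obtain ⟨w, rfl⟩ := H2.mk_surjective 𝓛 ρ b
  rw [H2c, H2map_mk, ← map_nsmul]
  congr 1
  ext g k
  simp [h]

variable {Sg : Type*} [Finite Sg] (π : G →* Equiv.Perm Sg)

/-- `κ : H²(Fn π T) → H²(Fn π 𝔾_m)` -/
noncomputable def KumData.kap (K : KumData α p χ ζ) (𝓛 : Lvl G) :
    H2 𝓛 (Fn π (rhoChi χ)) →+ H2 𝓛 (Fn π (gm α)) :=
  H2c 𝓛 (K.ses.fn π).hi

theorem KumData.kap_injective (K : KumData α p χ ζ) (h : GalAct 𝓛 α) (hπ : SmoothSet π 𝓛) :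
    Function.Injective (K.kap π 𝓛) := by
  rw [injective_iff_map_eq_zero]
  intro a ha
  obtain ⟨c, rfl⟩ := (H2c_i_eq_zero_iff (K.ses.fn π) (smooth_Fn h.smooth_gm hπ) a).1 ha
  rw [H90 h π hπ c, map_zero]

theorem KumData.exists_kap_eq_iff (K : KumData α p χ ζ) (h : GalAct 𝓛 α) (hπ : SmoothSet π 𝓛)
    (b : H2 𝓛 (Fn π (gm α))) : (∃ a, K.kap π 𝓛 a = b) ↔ p • b = 0 := by
  rw [← H2c_eq_nsmul (K.ses.fn π).hj p (fun a => rfl) b,
    H2c_j_eq_zero_iff (K.ses.fn π) (smooth_Fn h.smooth_gm hπ) b]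
  rfl

/-- the Kummer map `H⁰(Fn π 𝔾_m) → H¹(Fn π T)` -/
noncomputable def KumData.kum (K : KumData α p χ ζ) (h : GalAct 𝓛 α) (hπ : SmoothSet π 𝓛) :
    ↥(H0 (Fn π (gm α))) →+ H1 𝓛 (Fn π (rhoChi χ)) :=
  delta0 (K.ses.fn π) (smooth_Fn h.smooth_gm hπ)

theorem KumData.kum_surjective (K : KumData α p χ ζ) (h : GalAct 𝓛 α) (hπ : SmoothSet π 𝓛) :
    Function.Surjective (K.kum π h hπ) := fun x =>
  (H1c_i_eq_zero_iff (K.ses.fn π) (smooth_Fn h.smooth_gm hπ) x).1 (H90 h π hπ _)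

theorem KumData.kum_eq_zero_iff (K : KumData α p χ ζ) (h : GalAct 𝓛 α) (hπ : SmoothSet π 𝓛)
    (b : ↥(H0 (Fn π (gm α)))) : K.kum π h hπ b = 0 ↔ ∃ c : ↥(H0 (Fn π (gm α))), p • c = b :=
  delta0_eq_zero_iff (K.ses.fn π) (smooth_Fn h.smooth_gm hπ) b

/-- `κ` commutes with restriction -/
theorem KumData.kap_res (K : KumData α p χ ζ) {H : Type*} [Group H] (r : H →* G)
    (a : H2 𝓛 (Fn π (rhoChi χ))) :
    res2 𝓛 (Fn π (gm α)) r (K.kap π 𝓛 a) =
      (K.comp r).kap (π.comp r) (𝓛.comap r) (res2 𝓛 (Fn π (rhoChi χ)) r a) := by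
  obtain ⟨w, rfl⟩ := H2.mk_surjective 𝓛 _ a
  rfl

/-- the Kummer map commutes with restriction -/
theorem KumData.kum_res (K : KumData α p χ ζ) (h : GalAct 𝓛 α) (hπ : SmoothSet π 𝓛)
    {H : Type*} [Group H] (r : H →* G) (b : ↥(H0 (Fn π (gm α)))) :
    res1 𝓛 (Fn π (rhoChi χ)) r (K.kum π h hπ b) =
      (K.comp r).kum (π.comp r) (h.comap r) (hπ.comap r) (res0 (Fn π (gm α)) r b) :=
  delta0_natural (K.ses.fn π) (smooth_Fn h.smooth_gm hπ) ((K.comp r).ses.fn (π.comp r))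
    (smooth_Fn (h.comap r).smooth_gm (hπ.comap r)) (LvlMap.comap 𝓛 r)
    (isHomAlong_res (Fn π (rhoChi χ)) r) (isHomAlong_res (Fn π (gm α)) r)
    (isHomAlong_res (Fn π (gm α)) r) (fun _ => rfl) (fun _ => rfl) b

variable {π} {Sg' : Type*} [Finite Sg'] {π' : G →* Equiv.Perm Sg'}

/-- `κ` commutes with pull back -/
theorem KumData.kap_pull (K : KumData α p χ ζ) {u : Sg' → Sg} (hu : IsSetMap π π' u)
    (a : H2 𝓛 (Fn π (rhoChi χ))) :
    H2c 𝓛 (isHom_pull (gm α) hu) (K.kap π 𝓛 a) =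
      K.kap π' 𝓛 (H2c 𝓛 (isHom_pull (rhoChi χ) hu) a) := by
  obtain ⟨w, rfl⟩ := H2.mk_surjective 𝓛 _ a
  rfl

/-- `κ` commutes with push forward -/
theorem KumData.kap_push (K : KumData α p χ ζ) [Fintype Sg'] {u : Sg' → Sg}
    (hu : IsSetMap π π' u) (a : H2 𝓛 (Fn π' (rhoChi χ))) :
    H2c 𝓛 (isHom_push (gm α) hu) (K.kap π' 𝓛 a) =
      K.kap π 𝓛 (H2c 𝓛 (isHom_push (rhoChi χ) hu) a) := by
  obtain ⟨w, rfl⟩ := H2.mk_surjective 𝓛 _ a
  simp only [KumData.kap, H2c, H2map_mk]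
  congr 1
  ext g k s
  simp only [coe_Z2map, pp2_apply, MonoidHom.id_apply, push_apply, post_apply, map_sum]

/-- the Kummer map commutes with pull back -/
theorem KumData.kum_pull (K : KumData α p χ ζ) (h : GalAct 𝓛 α) (hπ : SmoothSet π 𝓛)
    (hπ' : SmoothSet π' 𝓛) {u : Sg' → Sg} (hu : IsSetMap π π' u) (b : ↥(H0 (Fn π (gm α)))) :
    H1c 𝓛 (isHom_pull (rhoChi χ) hu) (K.kum π h hπ b) =
      K.kum π' h hπ' (H0c (isHom_pull (gm α) hu) b) :=
  delta0_natural (K.ses.fn π) (smooth_Fn h.smooth_gm hπ) (K.ses.fn π')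
    (smooth_Fn h.smooth_gm hπ') (LvlMap.id 𝓛) (isHom_pull (rhoChi χ) hu).along
    (isHom_pull (gm α) hu).along (isHom_pull (gm α) hu).along (fun _ => rfl) (fun _ => rfl) b

/-- the Kummer map commutes with push forward -/
theorem KumData.kum_push (K : KumData α p χ ζ) (h : GalAct 𝓛 α) (hπ : SmoothSet π 𝓛)
    (hπ' : SmoothSet π' 𝓛) [Fintype Sg'] {u : Sg' → Sg} (hu : IsSetMap π π' u)
    (b : ↥(H0 (Fn π' (gm α)))) :
    H1c 𝓛 (isHom_push (rhoChi χ) hu) (K.kum π' h hπ' b) =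
      K.kum π h hπ (H0c (isHom_push (gm α) hu) b) :=
  delta0_natural (K.ses.fn π') (smooth_Fn h.smooth_gm hπ') (K.ses.fn π)
    (smooth_Fn h.smooth_gm hπ) (LvlMap.id 𝓛) (isHom_push (rhoChi χ) hu).along
    (isHom_push (gm α) hu).along (isHom_push (gm α) hu).along
    (fun a => by
      ext s
      simp only [push_apply, post_apply, map_sum])
    (fun a => by
      ext s
      simp only [push_apply, post_apply, map_sum]) b

end Fermat.Agent.S55.T
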